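/-
S26lib / Weil / Model  (helper9)  --  Project K (S26)

**The thin Weil model of an integral noetherian scheme over a field.**

For an integral noetherian scheme `X` with a structure morphism `f : X ⟶ Spec K` we construct
helper7's `DivModel K K(X)` (`Iface.lean`):

* `PrimeDiv X` : the points of `X` whose local ring is a discrete valuation ring
  (`coheight_primeDiv` : they have codimension one);
* `ordAt P x` : Mathlib's `Scheme.ord x P` (`0` at `0`); `ordAt_mul`, `ordAt_add`,
  `ordAt_germ_of_isUnit`, `exists_ordAt_eq_one`, `ordAt_const`;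
* `ordAt_toFF_eq_of_addVal`, `natCast_ordAt_toFF` : on germs `ordAt` is `IsDiscreteValuationRing.addVal`;
* `ordAt_toFF_eq_zero_iff`, `ordAt_toFF_pos`, `ordAt_pos_iff` : units / the maximal ideal;
* `ordAt_nonneg_iff` / `mem_integers_iff` : the valuation ring of `P` is the local ring
  `O_{X,P} ⊆ K(X)` (helper1's `Quad.toFF`);
* `finite_ordAt_ne_zero` : finite character (a non-zero rational function is a unit on a
  non-empty open `V`; a DVR point off `V` is the generic point of an irreducible component of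
  `X ∖ V`, because it has codimension one);
* `model f : DivModel K X.functionField` (`K`-algebra structure = helper6's `kAlgebraFF f`).
-/
import Mathlib
import Fermat.Agent.S26lib.Iface
import Fermat.Agent.S26lib.Grp.Nu
import Fermat.Agent.S26lib.Quad.LocEq

set_option autoImplicit false

noncomputable section

namespace Fermat.Agent.S26lib.Weil

open AlgebraicGeometry CategoryTheory TopologicalSpace Order Fermat.Agent.S26lib

universe u

variable {X : Scheme.{u}} [IsIntegral X]

/-- The prime divisors of an integral scheme: the points whose local ring is a DVR. -/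
def PrimeDiv (X : Scheme.{u}) [IsIntegral X] : Type u :=
  {z : X // IsDiscreteValuationRing (X.presheaf.stalk z)}

theorem coheight_primeDiv (P : PrimeDiv X) : coheight P.1 = 1 := by
  have := P.2
  have h1 := ringKrullDim_stalk_eq_coheight P.1
  rw [IsDiscreteValuationRing.ringKrullDim_eq_one] at h1
  have h2 : ((1 : ℕ∞) : WithBot ℕ∞) = ((coheight P.1 : ℕ∞) : WithBot ℕ∞) := by exact_mod_cast h1
  exact (WithBot.coe_injective h2).symm


section LN

variable [IsLocallyNoetherian X]

/-- The order of a rational function along a prime divisor (`0` at `0`). -/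
def ordAt (P : PrimeDiv X) (x : X.functionField) : ℤ := Scheme.ord x P.1

theorem ordAt_zero (P : PrimeDiv X) : ordAt P 0 = 0 := by
  simp [ordAt]

theorem ordAt_mul (P : PrimeDiv X) {x y : X.functionField} (hx : x ≠ 0) (hy : y ≠ 0) :
    ordAt P (x * y) = ordAt P x + ordAt P y :=
  Scheme.ord_mul hx hy

theorem ordAt_add (P : PrimeDiv X) {x y : X.functionField} (hxy : x + y ≠ 0) :
    min (ordAt P x) (ordAt P y) ≤ ordAt P (x + y) := by
  have := P.2
  exact Scheme.ord_add hxy

theorem ordAt_germ_of_isUnit (P : PrimeDiv X) {U : X.Opens} [Nonempty U] {s : Γ(X, U)}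
    (hs : IsUnit s) (hP : P.1 ∈ U) : ordAt P (X.germToFunctionField U s) = 0 :=
  Scheme.ord_of_isUnit hs hP

theorem ordAt_eq_iff (P : PrimeDiv X) {x : X.functionField} (hx : x ≠ 0) (n : ℤ) :
    ordAt P x = n ↔
      haveI : Ring.KrullDimLE 1 (X.presheaf.stalk P.1) :=
        krullDimLE_of_coheight_le (coheight_primeDiv P).le
      Ring.ordFrac (X.presheaf.stalk P.1) x = Multiplicative.ofAdd n :=
  Scheme.ord_eq_iff (coheight_primeDiv P) hx

theorem le_ordAt_iff (P : PrimeDiv X) {x : X.functionField} (hx : x ≠ 0) (n : ℤ) :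
    n ≤ ordAt P x ↔
      haveI : Ring.KrullDimLE 1 (X.presheaf.stalk P.1) :=
        krullDimLE_of_coheight_le (coheight_primeDiv P).le
      ((Multiplicative.ofAdd n : Multiplicative ℤ) : WithZero (Multiplicative ℤ)) ≤
        Ring.ordFrac (X.presheaf.stalk P.1) x :=
  Scheme.le_ord_iff (coheight_primeDiv P) hx

theorem exists_ordAt_eq_one (P : PrimeDiv X) : ∃ x : X.functionField, x ≠ 0 ∧ ordAt P x = 1 := by
  have := P.2
  obtain ⟨ϖ, hϖ⟩ := IsDiscreteValuationRing.exists_irreducible (X.presheaf.stalk P.1)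
  have h0 : algebraMap (X.presheaf.stalk P.1) X.functionField ϖ ≠ 0 :=
    Quad.toFF_ne_zero X hϖ.ne_zero
  refine ⟨algebraMap (X.presheaf.stalk P.1) X.functionField ϖ, h0, ?_⟩
  rw [ordAt_eq_iff P h0]
  rw [Ring.ordFrac_irreducible hϖ]
  rfl

theorem ordAt_nonneg_iff (P : PrimeDiv X) {x : X.functionField} (hx : x ≠ 0) :
    0 ≤ ordAt P x ↔ x ∈ Set.range (Quad.toFF X P.1) := by
  have := P.2
  rw [le_ordAt_iff P hx, Ring.ordFrac_eq_valuation_inv]
  have hv0 : (IsDiscreteValuationRing.maximalIdeal (X.presheaf.stalk P.1)).valuation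
      X.functionField x ≠ 0 := (map_ne_zero _).mpr hx
  constructor
  · intro h
    have h1 : (IsDiscreteValuationRing.maximalIdeal (X.presheaf.stalk P.1)).valuation
        X.functionField x ≤ 1 := by
      rw [ofAdd_zero, WithZero.coe_one] at h
      exact (one_le_inv₀ (zero_lt_iff.mpr hv0)).mp h
    exact IsDiscreteValuationRing.exists_lift_of_le_one h1
  · rintro ⟨a, rfl⟩
    have h1 := (IsDiscreteValuationRing.maximalIdeal (X.presheaf.stalk P.1)).valuation_le_one
      (K := X.functionField) a
    rw [ofAdd_zero, WithZero.coe_one]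
    exact (one_le_inv₀ (zero_lt_iff.mpr hv0)).mpr h1


/-- the order of a non-zero germ is zero iff the germ is a unit -/
theorem ordAt_toFF_eq_zero_iff (P : PrimeDiv X) {a : X.presheaf.stalk P.1} (ha : a ≠ 0) :
    ordAt P (Quad.toFF X P.1 a) = 0 ↔ IsUnit a := by
  have := P.2
  rw [ordAt_eq_iff P (Quad.toFF_ne_zero X ha), ofAdd_zero, WithZero.coe_one]
  exact (Ring.isUnit_iff_ordFrac_one_of_isDiscreteValuationRing (R := X.presheaf.stalk P.1)
    (K := X.functionField)).symm

theorem ordAt_toFF_nonneg (P : PrimeDiv X) (a : X.presheaf.stalk P.1) :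
    0 ≤ ordAt P (Quad.toFF X P.1 a) := by
  rcases eq_or_ne a 0 with rfl | ha
  · rw [map_zero, ordAt_zero]
  · exact (ordAt_nonneg_iff P (Quad.toFF_ne_zero X ha)).mpr ⟨a, rfl⟩

/-- a non-zero element of the maximal ideal has positive order -/
theorem ordAt_toFF_pos (P : PrimeDiv X) {a : X.presheaf.stalk P.1} (ha : a ≠ 0)
    (hm : a ∈ IsLocalRing.maximalIdeal (X.presheaf.stalk P.1)) :
    0 < ordAt P (Quad.toFF X P.1 a) := by
  refine lt_of_le_of_ne (ordAt_toFF_nonneg P a) (fun h => ?_)
  have hu := (ordAt_toFF_eq_zero_iff P ha).mp h.symm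
  exact (IsLocalRing.mem_maximalIdeal a).mp hm hu

theorem ordAt_pos_iff (P : PrimeDiv X) {x : X.functionField} (hx : x ≠ 0) :
    0 < ordAt P x ↔ ∃ a ∈ IsLocalRing.maximalIdeal (X.presheaf.stalk P.1),
      Quad.toFF X P.1 a = x := by
  constructor
  · intro h
    obtain ⟨a, rfl⟩ := (ordAt_nonneg_iff P hx).mp h.le
    have ha : a ≠ 0 := by
      rintro rfl
      exact hx (map_zero _)
    refine ⟨a, ?_, rfl⟩
    rw [IsLocalRing.mem_maximalIdeal]
    intro hu
    have := (ordAt_toFF_eq_zero_iff P ha).mpr hu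
    omega
  · rintro ⟨a, ha, rfl⟩
    have ha0 : a ≠ 0 := by
      rintro rfl
      exact hx (map_zero _)
    exact ordAt_toFF_pos P ha0 ha

/-- on germs, `ordAt` is the additive valuation of the discrete valuation ring `O_{X,P}` -/
theorem ordAt_toFF_eq_of_addVal (P : PrimeDiv X) {a : X.presheaf.stalk P.1} {n : ℕ}
    (hn : haveI := P.2; IsDiscreteValuationRing.addVal (X.presheaf.stalk P.1) a = n) :
    ordAt P (Quad.toFF X P.1 a) = n := by
  have := P.2
  have ha : a ≠ 0 := by
    rintro rfl
    rw [IsDiscreteValuationRing.addVal_zero] at hn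
    exact ENat.top_ne_natCast n hn
  have hK : Ring.KrullDimLE 1 (X.presheaf.stalk P.1) :=
    krullDimLE_of_coheight_le (coheight_primeDiv P).le
  rw [ordAt_eq_iff P (Quad.toFF_ne_zero X ha)]
  have h1 : Ring.ord (X.presheaf.stalk P.1) a = n := by
    rw [Ring.ord_eq_addVal, hn]
  rw [Ring.ordFrac_eq_ord _ ha]
  exact Ring.ordMonoidWithZeroHom_eq_coe _ (mem_nonZeroDivisors_of_ne_zero ha) h1

theorem natCast_ordAt_toFF (P : PrimeDiv X) {a : X.presheaf.stalk P.1} (ha : a ≠ 0) :
    haveI := P.2
    ((ordAt P (Quad.toFF X P.1 a)).toNat : ℕ∞) =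
      IsDiscreteValuationRing.addVal (X.presheaf.stalk P.1) a := by
  have := P.2
  have hne : IsDiscreteValuationRing.addVal (X.presheaf.stalk P.1) a ≠ ⊤ := by
    rw [Ne, IsDiscreteValuationRing.addVal_eq_top_iff]
    exact ha
  obtain ⟨n, hn⟩ := ENat.ne_top_iff_exists.mp hne
  rw [ordAt_toFF_eq_of_addVal P hn.symm, ← hn]
  simp

omit [IsLocallyNoetherian X] in
/-- A non-zero rational function is a unit on a non-empty open subset. -/
theorem exists_isUnit_germ_eq (x : X.functionField) (hx : x ≠ 0) :
    ∃ (V : X.Opens) (hV : genericPoint X ∈ V) (s : Γ(X, V)), IsUnit s ∧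
      X.presheaf.germ V (genericPoint X) hV s = x := by
  obtain ⟨U, hU, s, hs⟩ := X.presheaf.exists_germ_eq (x := genericPoint X) x
  obtain ⟨U', hU', s', hs'⟩ := X.presheaf.exists_germ_eq (x := genericPoint X) x⁻¹
  have hV : genericPoint X ∈ U ⊓ U' := ⟨hU, hU'⟩
  refine ⟨U ⊓ U', hV, X.presheaf.map (homOfLE inf_le_left).op s, ?_, ?_⟩
  · refine IsUnit.of_mul_eq_one (X.presheaf.map (homOfLE inf_le_right).op s') ?_
    apply germ_injective_of_isIntegral X (genericPoint X) hV
    rw [map_mul, map_one, TopCat.Presheaf.germ_res_apply, TopCat.Presheaf.germ_res_apply, hs, hs']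
    exact mul_inv_cancel₀ hx
  · rw [TopCat.Presheaf.germ_res_apply, hs]

end LN

section N

variable [IsNoetherian X]

theorem finite_ordAt_ne_zero (x : X.functionField) (hx : x ≠ 0) :
    {P : PrimeDiv X | ordAt P x ≠ 0}.Finite := by
  obtain ⟨V, hV, s, hs, hsx⟩ := exists_isUnit_germ_eq x hx
  have : Nonempty V := ⟨⟨genericPoint X, hV⟩⟩
  have hx' : X.germToFunctionField V s = x := hsx
  -- off `V` there are only finitely many prime divisors
  obtain ⟨S, hSfin, hSclosed, hSirr, hZ⟩ :=
    NoetherianSpace.exists_finite_set_isClosed_irreducible (s := (V : Set X)ᶜ)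
      V.isOpen.isClosed_compl
  let G : Set X := ⋃ t ∈ S, {y : X | IsGenericPoint y t}
  have hGfin : G.Finite := by
    refine Set.Finite.biUnion hSfin fun t _ => Set.Subsingleton.finite ?_
    intro y hy y' hy'
    exact hy.eq hy'
  have hsub : {P : PrimeDiv X | ordAt P x ≠ 0} ⊆ (fun P : PrimeDiv X => P.1) ⁻¹' G := by
    intro P hP
    have hPV : P.1 ∉ V := by
      intro hPV
      apply hP
      rw [← hx']
      exact ordAt_germ_of_isUnit P hs hPV
    have hPZ : P.1 ∈ (V : Set X)ᶜ := hPV
    rw [hZ] at hPZ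
    obtain ⟨t, ht, hPt⟩ := hPZ
    obtain ⟨ζ, hζ⟩ := QuasiSober.sober (hSirr t ht) (hSclosed t ht)
    have hζP : ζ ⤳ P.1 := hζ.specializes hPt
    have hζt : ζ ∈ t := hζ.mem
    have hζZ : ζ ∈ (V : Set X)ᶜ := by
      rw [hZ]
      exact ⟨t, ht, hζt⟩
    have hζη : ζ ≠ genericPoint X := by
      rintro rfl
      exact hζZ hV
    -- `ζ = P`, since `P` has codimension one
    have hζeq : ζ = P.1 := by
      by_contra hne
      have h1 : P.1 < ζ := by
        refine lt_iff_le_not_ge.mpr ⟨hζP, fun h => hne ?_⟩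
        exact (Specializes.antisymm hζP h).eq
      have h2 : ζ < (⊤ : X) := by
        refine lt_iff_le_not_ge.mpr ⟨le_top, fun h => hζη ?_⟩
        exact (Specializes.antisymm (show ζ ⤳ genericPoint X from h)
          (genericPoint_specializes ζ)).eq
      have h3 := Order.coheight_add_one_le h1
      have h4 := Order.coheight_add_one_le h2
      rw [coheight_primeDiv P] at h3
      have h5 : (1 : ℕ∞) ≤ coheight ζ := le_trans (by simp) h4
      have h6 : (2 : ℕ∞) ≤ coheight ζ + 1 := by
        calc (2 : ℕ∞) = 1 + 1 := by norm_num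
          _ ≤ coheight ζ + 1 := by gcongr
      exact absurd (le_trans h6 h3) (by norm_num)
    simp only [Set.mem_preimage, G, Set.mem_iUnion, Set.mem_ofPred_eq, exists_prop]
    exact ⟨t, ht, hζeq ▸ hζ⟩
  refine (hGfin.preimage ?_).subset hsub
  intro P _ Q _ h
  exact Subtype.ext h


variable {K : Type u} [Field K]

theorem ordAt_const (f : X ⟶ Spec (CommRingCat.of K)) (P : PrimeDiv X) (c : K) :
    ordAt P ((kToFF f).hom c) = 0 := by
  rcases eq_or_ne c 0 with rfl | hc
  · rw [map_zero, ordAt_zero]
  · have hu : IsUnit (f.appTop.hom ((Scheme.ΓSpecIso (CommRingCat.of K)).inv.hom c)) :=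
      (hc.isUnit.map _).map _
    exact ordAt_germ_of_isUnit P (U := ⊤) hu trivial

/-- **The thin Weil model of an integral noetherian `K`-scheme**: prime divisors = points whose
local ring is a DVR, with the order functions of Mathlib's `Scheme.ord`. -/
def model (f : X ⟶ Spec (CommRingCat.of K)) :
    letI := kAlgebraFF f
    DivModel K X.functionField :=
  letI := kAlgebraFF f
  { ι := PrimeDiv X
    ord := ordAt
    ord_zero := ordAt_zero
    ord_mul := fun P _ _ hx hy => ordAt_mul P hx hy
    ord_add := fun P _ _ _ _ hxy => ordAt_add P hxy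
    ord_const := fun P c => ordAt_const f P c
    ord_surj := exists_ordAt_eq_one
    finite_supp := finite_ordAt_ne_zero }

theorem model_ι (f : X ⟶ Spec (CommRingCat.of K)) :
    letI := kAlgebraFF f
    (model f).ι = PrimeDiv X := rfl

theorem model_ord (f : X ⟶ Spec (CommRingCat.of K)) (P : PrimeDiv X)
    (x : X.functionField) :
    letI := kAlgebraFF f
    (model f).ord P x = ordAt P x := rfl

/-- The valuation ring of a prime divisor is its local ring. -/
theorem mem_integers_iff (f : X ⟶ Spec (CommRingCat.of K)) (P : PrimeDiv X)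
    (x : X.functionField) :
    letI := kAlgebraFF f
    x ∈ (model f).integers P ↔ x ∈ Set.range (Quad.toFF X P.1) := by
  show (x = 0 ∨ 0 ≤ ordAt P x) ↔ _
  rcases eq_or_ne x 0 with rfl | hx
  · simp only [true_or, true_iff]
    exact ⟨0, map_zero _⟩
  · rw [← ordAt_nonneg_iff P hx]
    constructor
    · rintro (h | h)
      · exact absurd h hx
      · exact h
    · exact Or.inr

end N

end Fermat.Agent.S26lib.Weil
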