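/-
S26lib / Weil / Defs  (helper9)  --  Project K (S26)

**The S26 instantiation of the thin Weil model** (block (D) of ARCHITECTURE v1).

Input: `f : A ⟶ Spec K`, `L : RelativeGroupLaw K f`, `hA : AbelianSchemePropertyBundle K f`.

* `isIntegral_of_bundle hA : IsIntegral A` (`K` algebraically closed; helper6 + helper8),
  `isNoetherian_of_bundle hA : IsNoetherian A`; with these as instances the model is
  `Weil.model f : DivModel K A.functionField` (`Weil/Model.lean`), `K`-structure `kAlgebraFF f`;
* `neg L = NMul.invHom L` (`neg_neg`, `negIso`), `zeroPt L : A` (`neg_zeroPt`),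
  `trans L a = NMul.transHom L a`, `nMul L n = L.schemeNsmul n`, `nu L n h = nuHom …` (helper6);
* `U L` : a chosen affine open neighbourhood of the origin; `U₀ L = U ∩ [-1]⁻¹ U`
  (`zeroPt_mem_U₀`, `neg_preimage_U₀`, `isAffineOpen_U₀` for separated `f`, `nonempty_U₀`);
* `D L : PrimeDiv A → ℕ` : `0` on `U₀`, `1` off `U₀` (`D_eq_zero_iff`, `D_apply`, `D_neg`-type
  symmetry is `neg_preimage_U₀`).
-/
import Mathlib
import Fermat.Agent.S26lib.Weil.Model
import Fermat.Agent.S26lib.NMul.Yoneda
import Fermat.Agent.S26lib.Grp.Integral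
import Fermat.Agent.S26lib.UFD.Corollaries

set_option autoImplicit false

noncomputable section

namespace Fermat.Agent.S26lib.Weil

open AlgebraicGeometry CategoryTheory CategoryTheory.Limits TopologicalSpace NeronModelInfra
  GoodReductionJacobian Fermat.Agent.S26lib

universe u

variable {K : Type u} [Field K] {A : Scheme.{u}} {f : A ⟶ Spec (CommRingCat.of K)}

/-! ### the total space -/

/-- the total space of an abelian scheme over an algebraically closed field is integral -/
theorem isIntegral_of_bundle [IsAlgClosed K] (hA : AbelianSchemePropertyBundle K f) :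
    IsIntegral A :=
  haveI := hA.smooth
  isIntegral_of_abelianScheme hA (fun x => UFD.isDomain_stalk_of_smooth f x)

/-- the total space of an abelian scheme over a field is noetherian -/
theorem isNoetherian_of_bundle (hA : AbelianSchemePropertyBundle K f) : IsNoetherian A := by
  haveI := hA.proper
  haveI : IsLocallyNoetherian A := LocallyOfFiniteType.isLocallyNoetherian f
  haveI : CompactSpace A := QuasiCompact.compactSpace_of_compactSpace f
  exact {}

variable (L : RelativeGroupLaw K f)

/-! ### negation and the origin -/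

/-- the negation `[-1]` -/
abbrev neg : A ⟶ A := NMul.invHom L

theorem neg_comp : neg L ≫ f = f := NMul.invHom_comp L

theorem neg_neg : neg L ≫ neg L = 𝟙 A := by
  have h := NMul.comp_invHom L (⟨NMul.invHom L, NMul.invHom_comp L⟩ : SchemeHomOver f f)
  show NMul.invHom L ≫ NMul.invHom L = 𝟙 A
  rw [h]
  letI := L.pointGroup f
  have h2 : (⟨NMul.invHom L, NMul.invHom_comp L⟩ : SchemeHomOver f f) = (NMul.idPt f)⁻¹ :=
    Subtype.ext rfl
  have h3 : L.inv f (⟨NMul.invHom L, NMul.invHom_comp L⟩ : SchemeHomOver f f) = NMul.idPt f := by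
    rw [h2]
    exact inv_inv (NMul.idPt f)
  rw [h3]
  rfl

/-- the negation as an automorphism -/
def negIso : A ≅ A where
  hom := neg L
  inv := neg L
  hom_inv_id := neg_neg L
  inv_hom_id := neg_neg L

/-- the point of `Spec K` -/
def specPt (K : Type u) [Field K] : ↥(Spec (CommRingCat.of K)) := (default : PrimeSpectrum K)

/-- the origin, as a point of the underlying space -/
def zeroPt : A := (NMul.oneHom L) (specPt K)

theorem oneHom_neg : NMul.oneHom L ≫ neg L = NMul.oneHom L := by
  have h := NMul.comp_invHom L (NMul.onePt L)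
  show NMul.oneHom L ≫ NMul.invHom L = NMul.oneHom L
  have h1 : (NMul.onePt L).1 = NMul.oneHom L := rfl
  rw [← h1, h]
  letI := L.pointGroup (𝟙 (Spec (CommRingCat.of K)))
  have h3 : L.inv (𝟙 _) (NMul.onePt L) = NMul.onePt L := inv_one
  rw [h3]

theorem neg_zeroPt : (neg L) (zeroPt L) = zeroPt L := by
  have h := oneHom_neg L
  have h1 : (NMul.oneHom L ≫ neg L) (specPt K) = (NMul.oneHom L) (specPt K) := by rw [h]
  rwa [Scheme.Hom.comp_apply] at h1


/-! ### the symmetric affine open `U₀` and the divisor `D` -/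

theorem exists_isAffineOpen_mem_zeroPt : ∃ U : A.Opens, IsAffineOpen U ∧ zeroPt L ∈ U := by
  obtain ⟨_, ⟨U, hU, rfl⟩, hx, -⟩ :=
    A.isBasis_affineOpens.exists_subset_of_mem_open (Set.mem_univ (zeroPt L)) isOpen_univ
  exact ⟨U, hU, hx⟩

/-- a chosen affine open neighbourhood of the origin -/
def U : A.Opens := (exists_isAffineOpen_mem_zeroPt L).choose

theorem isAffineOpen_U : IsAffineOpen (U L) := (exists_isAffineOpen_mem_zeroPt L).choose_spec.1

theorem zeroPt_mem_U : zeroPt L ∈ U L := (exists_isAffineOpen_mem_zeroPt L).choose_spec.2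

/-- **the symmetric affine open neighbourhood of the origin** `U₀ = U ∩ [-1]⁻¹ U` -/
def U₀ : A.Opens := U L ⊓ (neg L) ⁻¹ᵁ (U L)

theorem zeroPt_mem_U₀ : zeroPt L ∈ U₀ L := by
  refine ⟨zeroPt_mem_U L, ?_⟩
  show (neg L) (zeroPt L) ∈ U L
  rw [neg_zeroPt]
  exact zeroPt_mem_U L

theorem neg_preimage_U₀ : (neg L) ⁻¹ᵁ (U₀ L) = U₀ L := by
  unfold U₀
  rw [Scheme.Hom.preimage_inf, ← Scheme.Hom.comp_preimage, neg_neg, Scheme.Hom.id_preimage,
    inf_comm]

theorem isAffineOpen_U₀ [IsSeparated f] : IsAffineOpen (U₀ L) := by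
  have h1 : IsAffineOpen ((neg L) ⁻¹ᵁ (U L)) :=
    (isAffineOpen_U L).preimage_of_isIso (negIso L).hom
  have h2 : IsAffineHom (pullback.diagonal f) := inferInstance
  exact isAffineHom_diagonal_iff.mp h2 ⊤ (isAffineOpen_top _) (U L) le_top _ le_top
    (isAffineOpen_U L) h1

theorem nonempty_U₀ : Nonempty (U₀ L) := ⟨⟨zeroPt L, zeroPt_mem_U₀ L⟩⟩

/-- **the divisor `D`**: the reduced sum of the prime divisors off `U₀` -/
def D [IsIntegral A] : PrimeDiv A → ℕ :=
  fun P => by classical exact if P.1 ∈ U₀ L then 0 else 1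

theorem D_eq_zero_iff [IsIntegral A] (P : PrimeDiv A) : D L P = 0 ↔ P.1 ∈ U₀ L := by
  classical
  unfold D
  split_ifs with h <;> simp [h]

theorem D_apply [IsIntegral A] (P : PrimeDiv A) [Decidable (P.1 ∈ U₀ L)] :
    D L P = if P.1 ∈ U₀ L then 0 else 1 := by
  unfold D
  congr


/-! ### multiplication by `n`, translations -/

/-- multiplication by `n` -/
abbrev nMul (n : ℕ) : A ⟶ A := L.schemeNsmul n

theorem nMul_comp (n : ℕ) : nMul L n ≫ f = f := L.schemeNsmul_over n

/-- translation by a rational point -/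
abbrev trans (a : SchemeHomOver (𝟙 (Spec (CommRingCat.of K))) f) : A ⟶ A := NMul.transHom L a

theorem trans_comp (a : SchemeHomOver (𝟙 (Spec (CommRingCat.of K))) f) : trans L a ≫ f = f :=
  NMul.transHom_comp L a

/-- the comorphism of `[n]` on the function field, as a `K`-algebra endomorphism -/
def nu [IsIntegral A] (n : ℕ) (h : DenseRange (nMul L n)) :
    letI := kAlgebraFF f
    A.functionField →ₐ[K] A.functionField :=
  nuHom (nMul L n) (nMul_comp L n) h

/-- `[n]` is dominant as soon as it is étale (`A` proper) -/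
theorem denseRange_nMul (hA : AbelianSchemePropertyBundle K f) (n : ℕ)
    [Etale (L.schemeNsmul n)] : DenseRange (nMul L n) :=
  haveI := hA.proper
  (surjective_of_etale_endo (L.schemeNsmul n) (L.schemeNsmul_over n)
    hA.connectedFibres).denseRange

end Fermat.Agent.S26lib.Weil
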